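import Fermat.Agent.Tau.HermiteCosets
import Fermat.Agent.Tau.JBound

/-!
# The Hecke images of `j`

The sum of `j((a z + b) / d)` over `a d = n`, `0 ≤ b < d` is invariant, as the triangular matrices
are permuted by `SL(2, ℤ)`, and its series has the single negative term `q ^ (-n)`.
-/

set_option autoImplicit false

noncomputable section

namespace FA.JDenominator

open UpperHalfPlane hiding I
open Complex HahnSeries FA.ModField FA.ClassRelation
open scoped MatrixGroups Manifold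

/-- The coefficient of `qⁿ` in `j`, and `0` for `n = 0`. -/
def cj (n : ℕ) : ℤ := if n = 0 then 0 else PowerSeries.coeff (n + 1) ModularCurve.jNum

theorem jq_coeff {n : ℕ} (hn : n ≠ 0) : (ModularCurve.jqModC ℂ).coeff (n : ℤ) = (cj n : ℂ) := by
  rw [ModularCurve.jqModC, cj, if_neg hn, coeff_single_mul, one_mul,
    show (n : ℤ) - -1 = ((n + 1 : ℕ) : ℤ) by push_cast; ring, ofPowerSeries_apply_coeff,
    PowerSeries.coeff_map, eq_intCast]

theorem jq_coeff_zero : (ModularCurve.jqModC ℂ).coeff 0 = 744 := by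
  rw [ModularCurve.jqModC, coeff_single_mul, one_mul,
    show (0 : ℤ) - -1 = ((1 : ℕ) : ℤ) by norm_num, ofPowerSeries_apply_coeff,
    PowerSeries.coeff_map, FA.JBound.low_jNum.2.1, eq_intCast]
  norm_num

theorem cj_small : cj 1 = 196884 ∧ cj 2 = 21493760 :=
  ⟨FA.JBound.low_jNum.2.2.1, FA.JBound.low_jNum.2.2.2⟩

variable (n : ℕ) [NeZero n]

/-- The term of a triangular matrix. -/
def term (q : ℕ × ℕ) (z : ℍ) : ℂ := jfun (ofComplex (mob (triMat n q) z))

/-- `∑ j((a z + b) / d)` over `a d = n`, `0 ≤ b < d`. -/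
def heckeFun (z : ℍ) : ℂ := ∑ q ∈ triSet n, term n q z

theorem exists_term_eq {q : ℕ × ℕ} (hq : q ∈ triSet n) (g : SL(2, ℤ)) :
    ∃ q' ∈ triSet n, ∀ z : ℍ, term n q (g • z) = term n q' z := by
  obtain ⟨g', q', hq', hM⟩ := exists_triSet (NeZero.ne n) (M := triMat n q * (g : Mat))
    (by rw [Matrix.det_mul, det_triMat (NeZero.ne n) hq, g.det_coe, mul_one])
  refine ⟨q', hq', fun z => ?_⟩
  have hdet : 0 < (triMat n q').det := by
    rw [det_triMat (NeZero.ne n) hq']; exact_mod_cast Nat.pos_of_ne_zero (NeZero.ne n)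
  have hg : 0 < (g : Mat).det := by rw [g.det_coe]; norm_num
  rw [term, term, ← jfun_SL_mul g' hdet z, ← hM, mob_mul hg, mob_SL]

theorem heckeFun_smul (g : SL(2, ℤ)) (z : ℍ) : heckeFun n (g • z) = heckeFun n z := by
  classical
  choose π hπ hπe using fun q (hq : q ∈ triSet n) => exists_term_eq n hq g
  refine Finset.sum_bij π hπ (fun q₁ h₁ q₂ h₂ e => ?_) ?_ fun q hq => hπe q hq z
  · refine tri_eq_of_fun_eq n h₁ h₂ (funext fun w => ?_)
    have e1 := hπe q₁ h₁ (g⁻¹ • w)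
    have e2 := hπe q₂ h₂ (g⁻¹ • w)
    rw [smul_inv_smul] at e1 e2
    rw [e] at e1
    exact e1.trans e2.symm
  · intro b hb
    obtain ⟨a, ha, e⟩ := Finset.surj_on_of_inj_on_of_card_le π hπ (fun q₁ q₂ h₁ h₂ e =>
      tri_eq_of_fun_eq n h₁ h₂ (funext fun w => by
        have e1 := hπe q₁ h₁ (g⁻¹ • w)
        have e2 := hπe q₂ h₂ (g⁻¹ • w)
        rw [smul_inv_smul] at e1 e2
        rw [e] at e1
        exact e1.trans e2.symm)) le_rfl b hb
    exact ⟨a, ha, e.symm⟩

theorem mdiff_heckeFun : MDiff (heckeFun n) := by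
  rw [UpperHalfPlane.mdifferentiable_iff]
  have hj := UpperHalfPlane.mdifferentiable_iff.1 mdiff_jfun
  have ht : ∀ q ∈ triSet n, DifferentiableOn ℂ (term n q ∘ ofComplex) {z : ℂ | 0 < z.im} := by
    intro q hq
    have hdet : 0 < (triMat n q).det := by
      rw [det_triMat (NeZero.ne n) hq]; exact_mod_cast Nat.pos_of_ne_zero (NeZero.ne n)
    have he : Set.EqOn (term n q ∘ ofComplex) ((jfun ∘ ofComplex) ∘ mob (triMat n q))
        {z : ℂ | 0 < z.im} := fun z hz => by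
      simp only [Function.comp_apply, term, ofComplex_apply_of_im_pos hz]
    refine DifferentiableOn.congr (hj.comp ?_ fun z hz => mob_im_pos hdet ⟨z, hz⟩) he
    refine ((differentiableOn_id.const_mul _).add_const _).div
      ((differentiableOn_id.const_mul _).add_const _) fun z hz => ?_
    exact mob_den_ne_zero hdet.ne' ⟨z, hz⟩
  exact (DifferentiableOn.fun_sum ht).congr fun z _ => by simp [heckeFun, Function.comp_apply]

/-- The series of a triangular matrix, coefficientwise. -/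
theorem exists_term_series {q : ℕ × ℕ} (hq : q ∈ triSet n) :
    ∃ L, HasExp (qp n) (term n q) L ∧ ∀ k : ℤ, L.coeff ((n : ℤ) * k) =
      if (q.1 : ℤ) ∣ ((n / q.1 : ℕ) : ℤ) * k then
        ((zetaN n : ℂ) ^ ((q.2 : ℤ) * q.1)) ^ (((n / q.1 : ℕ) : ℤ) * k / q.1) *
          (ModularCurve.jqModC ℂ).coeff (((n / q.1 : ℕ) : ℤ) * k / q.1)
      else 0 := by
  obtain ⟨hne, h⟩ := hasExp_tri n hq
  refine ⟨_, h, fun k => ?_⟩
  obtain ⟨⟨d, hd⟩, -⟩ := (mem_triSet (NeZero.ne n)).1 hq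
  have ha : 0 < q.1 := Nat.pos_of_ne_zero fun e => NeZero.ne n (by rw [hd, e, zero_mul])
  have hdiv : n / q.1 = d := by rw [hd, Nat.mul_div_cancel_left _ ha]
  rw [hdiv]
  have hn : (n : ℤ) = (q.1 : ℤ) * d := by exact_mod_cast hd
  have ha' : (q.1 : ℤ) ≠ 0 := by exact_mod_cast ha.ne'
  split_ifs with hdvd
  · obtain ⟨m, hm⟩ := hdvd
    rw [show (n : ℤ) * k = ((q.1 * q.1 : ℕ) : ℤ) * m by
      rw [hn, mul_assoc, hm]; push_cast; ring, sj, ModularCurve.qExpand_coeff_mul, twist_coeff,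
      hm, Int.mul_ediv_cancel_left _ ha']
    simp [Units.val_zpow_eq_zpow_val]
  · refine ModularCurve.qExpand_coeff_of_not_dvd _ _ fun ⟨m, hm⟩ => hdvd ⟨m, ?_⟩
    refine mul_left_cancel₀ ha' ?_
    rw [hn] at hm
    push_cast at hm
    linarith

theorem geom_zeta {a d : ℕ} (hn : n = a * d) (m : ℤ) :
    ∑ b ∈ Finset.range d, ((zetaN n : ℂ) ^ ((b : ℤ) * a)) ^ m =
      if (d : ℤ) ∣ m then (d : ℂ) else 0 := by
  have ha : (a : ℤ) ≠ 0 := by
    exact_mod_cast fun e : a = 0 => NeZero.ne n (by rw [hn, e, zero_mul])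
  set x := (zetaN n : ℂ) ^ ((a : ℤ) * m)
  have hx : ∀ b : ℕ, ((zetaN n : ℂ) ^ ((b : ℤ) * a)) ^ m = x ^ b := fun b => by
    rw [← zpow_mul, ← zpow_natCast, ← zpow_mul]; congr 1; ring
  have hone : x = 1 ↔ (d : ℤ) ∣ m := by
    rw [(zetaN_prim n).zpow_eq_one_iff_dvd, hn, Nat.cast_mul, mul_dvd_mul_iff_left ha]
  have hxd : x ^ d = 1 := by
    rw [← zpow_natCast, ← zpow_mul, (zetaN_prim n).zpow_eq_one_iff_dvd, hn]
    exact ⟨m, by push_cast; ring⟩
  rw [Finset.sum_congr rfl fun b _ => hx b]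
  split_ifs with h
  · rw [hone.2 h]; simp
  · rw [geom_sum_eq (fun e => h (hone.1 e)), hxd, sub_self, zero_div]

theorem sum_triSet_eq {M : Type*} [AddCommMonoid M] (F : ℕ × ℕ → M) :
    ∑ q ∈ triSet n, F q = ∑ a ∈ n.divisors, ∑ b ∈ Finset.range (n / a), F (a, b) := by
  refine Eq.trans ?_ (Finset.sum_sigma n.divisors (fun a => Finset.range (n / a))
    fun s => F (s.1, s.2))
  exact Finset.sum_nbij' (fun q => ⟨q.1, q.2⟩) (fun s => (s.1, s.2))
    (fun q hq => by
      obtain ⟨h1, h2⟩ := (mem_triSet (NeZero.ne n)).1 hq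
      simp [Nat.mem_divisors, h1, h2, NeZero.ne n])
    (fun s hs => by
      simp only [Finset.mem_sigma, Nat.mem_divisors, Finset.mem_range] at hs
      exact (mem_triSet (NeZero.ne n)).2 ⟨hs.1.1, hs.2⟩)
    (fun q _ => rfl) (fun s _ => rfl) fun q _ => rfl

/-- **The series of the Hecke image.** -/
theorem exists_heckeSer : ∃ L, HasExp (qp 1) (heckeFun n) L ∧ ∀ k : ℤ, L.coeff k =
    ∑ a ∈ n.divisors, if (a : ℤ) ∣ k then
      ((n / a : ℕ) : ℂ) * (ModularCurve.jqModC ℂ).coeff (((n / a : ℕ) : ℤ) * (k / a)) else 0 := by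
  classical
  choose S hS hSc using fun q (hq : q ∈ triSet n) => exists_term_series n hq
  have hsum : HasExp (qp n) (heckeFun n) (∑ q ∈ (triSet n).attach, S q.1 q.2) := by
    have h := hasExp_sum (T := qp n) (triSet n).attach (f := fun q => term n q.1)
      (L := fun q => S q.1 q.2) fun q _ => hS q.1 q.2
    refine h.congr (funext fun z => ?_)
    rw [Finset.sum_apply, heckeFun, Finset.sum_attach (triSet n) (fun q => term n q z)]
  obtain ⟨L, hL⟩ := hasExp_descend (fun z => heckeFun_smul n ModularGroup.T z) hsum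
  refine ⟨L, hL, fun k => ?_⟩
  have h1 := hL.comp (U := qp n) id n 1 fun z => by
    rw [Units.val_one, one_mul, qp_pow_self]; rfl
  have he := hsum.unique (covers_qp n) h1
  have hk := congrArg (fun s : LaurentSeries ℂ => s.coeff ((n : ℤ) * k)) he
  simp only [ModularCurve.qExpand_coeff_mul, twist_one_apply] at hk
  rw [← hk, coeff_sum]
  rw [Finset.sum_congr rfl fun q _ => hSc q.1 q.2 k,
    Finset.sum_attach (triSet n) (fun q => if (q.1 : ℤ) ∣ ((n / q.1 : ℕ) : ℤ) * k then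
      ((zetaN n : ℂ) ^ ((q.2 : ℤ) * q.1)) ^ (((n / q.1 : ℕ) : ℤ) * k / q.1) *
        (ModularCurve.jqModC ℂ).coeff (((n / q.1 : ℕ) : ℤ) * k / q.1) else 0), sum_triSet_eq]
  refine Finset.sum_congr rfl fun a ha => ?_
  obtain ⟨⟨d, hd⟩, -⟩ := Nat.mem_divisors.1 ha
  have ha0 : 0 < a := Nat.pos_of_ne_zero fun e => NeZero.ne n (by rw [hd, e, zero_mul])
  have hd0 : (d : ℤ) ≠ 0 := by
    exact_mod_cast fun e : d = 0 => NeZero.ne n (by rw [hd, e, mul_zero])
  have hdiv : n / a = d := by rw [hd, Nat.mul_div_cancel_left _ ha0]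
  simp only [hdiv]
  by_cases h : (a : ℤ) ∣ (d : ℤ) * k
  · simp only [if_pos h]
    obtain ⟨m, hm⟩ := h
    rw [hm, Int.mul_ediv_cancel_left _ (by exact_mod_cast ha0.ne'), ← Finset.sum_mul,
      geom_zeta n hd m]
    have hiff : (d : ℤ) ∣ m ↔ (a : ℤ) ∣ k := by
      constructor
      · rintro ⟨u, rfl⟩
        exact ⟨u, mul_left_cancel₀ hd0 (by rw [hm]; ring)⟩
      · rintro ⟨u, rfl⟩
        exact ⟨u, mul_left_cancel₀ (show (a : ℤ) ≠ 0 by exact_mod_cast ha0.ne')
          (by rw [← hm]; ring)⟩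
    by_cases hk' : (a : ℤ) ∣ k
    · rw [if_pos (hiff.2 hk'), if_pos hk']
      obtain ⟨u, rfl⟩ := hk'
      rw [Int.mul_ediv_cancel_left _ (by exact_mod_cast ha0.ne'),
        show m = (d : ℤ) * u from mul_left_cancel₀ (show (a : ℤ) ≠ 0 by exact_mod_cast ha0.ne')
          (by rw [← hm]; ring)]
    · rw [if_neg (mt hiff.1 hk'), if_neg hk', zero_mul]
  · simp only [if_neg h, Finset.sum_const_zero]
    rw [if_neg fun hk' => h (hk'.mul_left _)]

/-- The series of the Hecke image. -/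
def heckeSer : LaurentSeries ℂ := (exists_heckeSer n).choose

theorem heckeSer_coeff (k : ℤ) : (heckeSer n).coeff k =
    ∑ a ∈ n.divisors, if (a : ℤ) ∣ k then
      ((n / a : ℕ) : ℂ) * (ModularCurve.jqModC ℂ).coeff (((n / a : ℕ) : ℤ) * (k / a)) else 0 :=
  (exists_heckeSer n).choose_spec.2 k

theorem hasExp_heckeSer : HasExp (qp 1) (heckeFun n) (heckeSer n) :=
  (exists_heckeSer n).choose_spec.1

theorem heckeSer_coeff_neg {k : ℤ} (hk : k < 0) :
    (heckeSer n).coeff k = if k = -(n : ℤ) then 1 else 0 := by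
  rw [heckeSer_coeff]
  have key : ∀ a ∈ n.divisors, (if (a : ℤ) ∣ k then
      ((n / a : ℕ) : ℂ) * (ModularCurve.jqModC ℂ).coeff (((n / a : ℕ) : ℤ) * (k / a)) else 0) =
      if a = n ∧ k = -(n : ℤ) then 1 else 0 := by
    intro a ha
    obtain ⟨⟨d, hd⟩, -⟩ := Nat.mem_divisors.1 ha
    have ha0 : 0 < a := Nat.pos_of_ne_zero fun e => NeZero.ne n (by rw [hd, e, zero_mul])
    have hd0 : 1 ≤ d := Nat.one_le_iff_ne_zero.2 fun e => NeZero.ne n (by rw [hd, e, mul_zero])
    rw [show n / a = d by rw [hd, Nat.mul_div_cancel_left _ ha0]]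
    by_cases h : (a : ℤ) ∣ k
    · obtain ⟨u, rfl⟩ := h
      have ha' : (0 : ℤ) < a := by exact_mod_cast ha0
      have hu : u ≤ -1 := by
        by_contra hu
        have : 0 ≤ (a : ℤ) * u := mul_nonneg ha'.le (by omega)
        omega
      rw [if_pos (dvd_mul_right _ _), Int.mul_ediv_cancel_left _ ha'.ne']
      have hdu : (d : ℤ) * u ≤ -1 := by nlinarith
      rcases hdu.lt_or_eq with hlt | heq
      · rw [jqModC_coeff_of_lt hlt, mul_zero, if_neg]
        rintro ⟨rfl, hk'⟩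
        have h1 : u = -1 := mul_left_cancel₀ ha'.ne' (by rw [hk']; ring)
        have h2 : d = 1 := Nat.eq_of_mul_eq_mul_left ha0 (hd.symm.trans (mul_one _).symm)
        rw [h1, h2] at hlt
        norm_num at hlt
      · have hd1 : d = 1 := by
          have : (d : ℤ) * (-u) = 1 := by linarith
          have := Int.eq_one_of_mul_eq_one_right (Int.natCast_nonneg d) this
          exact_mod_cast this
        subst hd1
        rw [Nat.cast_one, one_mul] at heq
        subst heq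
        rw [mul_one] at hd
        subst hd
        rw [if_pos ⟨rfl, by ring⟩, Nat.cast_one, Nat.cast_one, one_mul, one_mul,
          jqModC_coeff_neg_one]
    · rw [if_neg h, if_neg]
      rintro ⟨rfl, rfl⟩
      exact h (dvd_neg.2 dvd_rfl)
  rw [Finset.sum_congr rfl key]
  split_ifs with hk'
  · simp [hk', NeZero.ne n]
  · simp [hk']

theorem heckeSer_coeff_zero :
    (heckeSer n).coeff 0 = ((∑ d ∈ n.divisors, d : ℕ) : ℂ) * 744 := by
  rw [heckeSer_coeff, ← Nat.sum_div_divisors n (fun d => d), Nat.cast_sum,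
    Finset.sum_mul]
  exact Finset.sum_congr rfl fun a _ => by simp [jq_coeff_zero]

/-- The coefficients of `j | T n`. -/
def cHecke (n k : ℕ) : ℤ :=
  ∑ r ∈ (Nat.gcd n k).divisors, ((n / r : ℕ) : ℤ) * cj (n / r * (k / r))

theorem heckeSer_coeff_pos {k : ℕ} (hk : k ≠ 0) :
    (heckeSer n).coeff (k : ℤ) = (cHecke n k : ℂ) := by
  rw [heckeSer_coeff, cHecke, Int.cast_sum,
    ← Finset.sum_filter (s := n.divisors) (p := fun a : ℕ => (a : ℤ) ∣ (k : ℤ))]
  have hs : n.divisors.filter (fun a : ℕ => (a : ℤ) ∣ (k : ℤ)) = (Nat.gcd n k).divisors := by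
    ext a
    simp [Nat.mem_divisors, Int.natCast_dvd_natCast, Nat.dvd_gcd_iff, NeZero.ne n]
  rw [hs]
  refine Finset.sum_congr rfl fun a ha => ?_
  obtain ⟨han, hak⟩ := Nat.dvd_gcd_iff.1 (Nat.dvd_of_mem_divisors ha)
  have h1 : n / a * (k / a) ≠ 0 :=
    mul_ne_zero (Nat.div_pos (Nat.le_of_dvd (Nat.pos_of_ne_zero (NeZero.ne n)) han)
      (Nat.pos_of_mem_divisors ha)).ne' (Nat.div_pos (Nat.le_of_dvd (Nat.pos_of_ne_zero hk) hak)
      (Nat.pos_of_mem_divisors ha)).ne'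
  rw [show ((n / a : ℕ) : ℤ) * ((k : ℤ) / a) = ((n / a * (k / a) : ℕ) : ℤ) by push_cast; rfl,
    jq_coeff h1]
  push_cast
  rfl

end FA.JDenominator

end
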