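import Fermat.Agent.JDenominator.Series
import Mathlib.RingTheory.PowerSeries.PiTopology

/-!
# The product expansion of `p (J(p) - J(q))`

The product of `(1 - pᵐ qʳ) ^ c(m r)` has the same logarithmic derivative as `H`, as the Hecke
images give. Both have constant term `1`, so they agree.
-/

set_option autoImplicit false

noncomputable section

namespace FA.JDenominator

open scoped PowerSeries.WithPiTopology

section LogDeriv

variable {R : Type*} [CommRing R]

/-- The logarithmic derivative `(θ x) / x` of a unit, as a homomorphism. -/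
def logD : (PowerSeries R)ˣ →* Multiplicative (PowerSeries R) where
  toFun x := Multiplicative.ofAdd (theta (x : PowerSeries R) * ↑x⁻¹)
  map_one' := by simp [theta_one]
  map_mul' x y := by
    rw [← ofAdd_add]
    refine congrArg _ ?_
    simp only [Units.val_mul, mul_inv, theta_mul]
    linear_combination (theta (x : PowerSeries R) * (↑x⁻¹ : PowerSeries R)) * y.mul_inv +
      (theta (y : PowerSeries R) * (↑y⁻¹ : PowerSeries R)) * x.mul_inv

theorem theta_unit (x : (PowerSeries R)ˣ) :
    theta (x : PowerSeries R) = (x : PowerSeries R) * (logD x).toAdd := by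
  simp only [logD, MonoidHom.coe_mk, OneHom.coe_mk, toAdd_ofAdd]
  linear_combination (-theta (x : PowerSeries R)) * x.mul_inv

end LogDeriv

/-- `1 - p^(m+1) q^(r+1)`. -/
def factor (m r : ℕ) : PowerSeries (PowerSeries ℂ) :=
  1 - PowerSeries.C (PowerSeries.X ^ (r + 1)) * PowerSeries.X ^ (m + 1)

theorem isUnit_factor (m r : ℕ) : IsUnit (factor m r) :=
  PowerSeries.isUnit_iff_constantCoeff.2 (by simp [factor])

/-- `1 - p^(m+1) q^(r+1)` as a unit. -/
def factorUnit (i : ℕ × ℕ) : (PowerSeries (PowerSeries ℂ))ˣ := (isUnit_factor i.1 i.2).unit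

/-- The logarithmic derivative of `1 - p^(m+1) q^(r+1)`. -/
def factorLog (m r : ℕ) : PowerSeries (PowerSeries ℂ) :=
  PowerSeries.mk fun M => if M ≠ 0 ∧ (m + 1) ∣ M then
    -((m + 1 : ℕ) : PowerSeries ℂ) * (PowerSeries.X ^ (r + 1)) ^ (M / (m + 1)) else 0

theorem factor_mul_factorLog (m r : ℕ) : factor m r * factorLog m r = theta (factor m r) := by
  ext M : 1
  rw [coeff_theta, factor, sub_mul, one_mul, map_sub, mul_assoc, PowerSeries.coeff_C_mul,
    PowerSeries.coeff_X_pow_mul', map_sub, PowerSeries.coeff_one, PowerSeries.coeff_C_mul,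
    PowerSeries.coeff_X_pow, factorLog, PowerSeries.coeff_mk]
  rcases lt_trichotomy M (m + 1) with hM | rfl | hM
  · have : ¬(M ≠ 0 ∧ (m + 1) ∣ M) := fun h =>
      absurd (Nat.le_of_dvd (Nat.pos_of_ne_zero h.1) h.2) (by omega)
    rw [if_neg this, if_neg (show ¬m + 1 ≤ M by omega), if_neg (show M ≠ m + 1 by omega)]
    rcases Nat.eq_zero_or_pos M with rfl | h0
    · simp
    · rw [if_neg h0.ne']; simp
  · rw [if_pos ⟨Nat.succ_ne_zero m, dvd_rfl⟩, if_pos le_rfl, if_pos rfl, Nat.sub_self,
      PowerSeries.coeff_mk, if_neg (by simp), Nat.div_self (Nat.succ_pos m),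
      if_neg (Nat.succ_ne_zero m)]
    ring
  · rw [if_pos (Nat.le_of_lt hM), if_neg (show M ≠ 0 by omega), if_neg (show M ≠ m + 1 by omega),
      PowerSeries.coeff_mk]
    by_cases hd : (m + 1) ∣ M
    · obtain ⟨t, rfl⟩ := hd
      obtain ⟨t, rfl⟩ : ∃ u, t = u + 2 := ⟨t - 2, by
        rcases t with _ | _ | t
        · simp at hM
        · simp at hM
        · omega⟩
      have e : (m + 1) * (t + 2) - (m + 1) = (m + 1) * (t + 1) := by
        rw [show t + 2 = t + 1 + 1 from rfl, Nat.mul_succ, Nat.add_sub_cancel]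
      rw [e, if_pos ⟨by simp, dvd_mul_right _ _⟩, if_pos ⟨by simp, dvd_mul_right _ _⟩,
        Nat.mul_div_cancel_left _ (Nat.succ_pos m), Nat.mul_div_cancel_left _ (Nat.succ_pos m)]
      ring
    · rw [if_neg (fun h => hd h.2), if_neg (fun h => hd ?_)]
      · ring
      · have h2 := dvd_add h.2 (dvd_refl (m + 1))
        rwa [Nat.sub_add_cancel (Nat.le_of_lt hM)] at h2

theorem logD_factorUnit (i : ℕ × ℕ) : (logD (factorUnit i)).toAdd = factorLog i.1 i.2 := by
  refine (factorUnit i).isUnit.mul_left_cancel ?_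
  rw [← theta_unit]
  exact (factor_mul_factorLog i.1 i.2).symm

/-- The finite products of `(1 - p^(m+1) q^(r+1)) ^ c((m+1)(r+1))`. -/
def partialProd (s : Finset (ℕ × ℕ)) : (PowerSeries (PowerSeries ℂ))ˣ :=
  ∏ i ∈ s, factorUnit i ^ cj ((i.1 + 1) * (i.2 + 1))

theorem coeff_zero_partialProd (s : Finset (ℕ × ℕ)) :
    PowerSeries.coeff 0 (partialProd s : PowerSeries (PowerSeries ℂ)) = 1 := by
  set φ := Units.map ((PowerSeries.constantCoeff (R := PowerSeries ℂ)) :
    PowerSeries (PowerSeries ℂ) →* PowerSeries ℂ) with hφ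
  have h1 : ∀ i, φ (factorUnit i) = 1 := fun i => by
    ext : 1
    simp [hφ, factorUnit, factor]
  have h2 : φ (partialProd s) = 1 := by
    rw [partialProd, map_prod]
    exact Finset.prod_eq_one fun i _ => by rw [map_zpow, h1, one_zpow]
  rw [PowerSeries.coeff_zero_eq_constantCoeff_apply]
  exact congrArg Units.val h2

theorem logD_partialProd (s : Finset (ℕ × ℕ)) : (logD (partialProd s)).toAdd =
    ∑ i ∈ s, cj ((i.1 + 1) * (i.2 + 1)) • factorLog i.1 i.2 := by
  rw [partialProd, map_prod, toAdd_prod]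
  exact Finset.sum_congr rfl fun i _ => by rw [map_zpow, toAdd_zpow, logD_factorUnit]

theorem coeff_coeff_factorLog (m r M N : ℕ) :
    PowerSeries.coeff N (PowerSeries.coeff M (factorLog m r)) =
      if M ≠ 0 ∧ (m + 1) ∣ M ∧ N = (r + 1) * (M / (m + 1)) then -((m + 1 : ℕ) : ℂ) else 0 := by
  rw [factorLog, PowerSeries.coeff_mk]
  by_cases h : M ≠ 0 ∧ (m + 1) ∣ M
  · rw [if_pos h, ← pow_mul, neg_mul, map_neg, ← map_natCast (PowerSeries.C (R := ℂ)),
      PowerSeries.coeff_C_mul, PowerSeries.coeff_X_pow]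
    by_cases hN : N = (r + 1) * (M / (m + 1))
    · rw [if_pos hN, if_pos ⟨h.1, h.2, hN⟩, mul_one]
    · rw [if_neg hN, if_neg fun h' => hN h'.2.2, mul_zero, neg_zero]
  · rw [if_neg h, map_zero, if_neg fun h' => h ⟨h'.1, h'.2.1⟩]

/-- In degrees at most `B` only the factors with indices below `B` count. -/
theorem coeff_logD_partialProd {B : ℕ} {s : Finset (ℕ × ℕ)}
    (hs : Finset.range B ×ˢ Finset.range B ⊆ s) {M N : ℕ} (hM : M ≤ B) (hN : N ≤ B) :
    PowerSeries.coeff N (PowerSeries.coeff M (logD (partialProd s)).toAdd) =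
      PowerSeries.coeff N (PowerSeries.coeff M vSer) := by
  rw [coeff_coeff_vSer, logD_partialProd]
  simp only [map_sum, map_zsmul, coeff_coeff_factorLog]
  simp only [zsmul_eq_mul, mul_ite, mul_zero]
  rw [← Finset.sum_filter]
  split_ifs with h0
  · refine Finset.sum_eq_zero fun i hi => ?_
    obtain ⟨h1, h2, h3⟩ := (Finset.mem_filter.1 hi).2
    rcases h0 with rfl | rfl
    · exact absurd rfl h1
    · have : 0 < (i.2 + 1) * (M / (i.1 + 1)) := Nat.mul_pos (Nat.succ_pos _)
        (Nat.div_pos (Nat.le_of_dvd (Nat.pos_of_ne_zero h1) h2) (Nat.succ_pos _))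
      omega
  push Not at h0
  obtain ⟨hM0, hN0⟩ := h0
  rw [cHecke, Int.cast_sum, ← Finset.sum_neg_distrib]
  refine Finset.sum_nbij' (fun i => M / (i.1 + 1)) (fun t => (M / t - 1, N / t - 1))
    (fun i hi => ?_) (fun t ht => ?_) (fun i hi => ?_) (fun t ht => ?_) (fun i hi => ?_)
  · obtain ⟨-, -, h2, h3⟩ := Finset.mem_filter.1 hi
    exact Nat.mem_divisors.2 ⟨Nat.dvd_gcd (Nat.div_dvd_of_dvd h2) (h3 ▸ dvd_mul_left _ _),
      fun e => hM0 (Nat.gcd_eq_zero_iff.1 e).1⟩
  · obtain ⟨hg, -⟩ := Nat.mem_divisors.1 ht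
    have ht0 : 0 < t := Nat.pos_of_mem_divisors ht
    obtain ⟨a, rfl⟩ := hg.trans (Nat.gcd_dvd_left M N)
    obtain ⟨b, rfl⟩ := hg.trans (Nat.gcd_dvd_right _ N)
    have ha : 0 < a := Nat.pos_of_ne_zero fun e => hM0 (by simp [e])
    have hb : 0 < b := Nat.pos_of_ne_zero fun e => hN0 (by simp [e])
    have hat : a ≤ t * a := Nat.le_mul_of_pos_left _ ht0
    have hbt : b ≤ t * b := Nat.le_mul_of_pos_left _ ht0
    rw [Nat.mul_div_cancel_left _ ht0, Nat.mul_div_cancel_left _ ht0, Finset.mem_filter]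
    refine ⟨hs (by simp; omega), hM0, ?_, ?_⟩
    · rw [Nat.sub_add_cancel ha]
      exact dvd_mul_left _ _
    · rw [Nat.sub_add_cancel ha, Nat.sub_add_cancel hb, Nat.mul_div_cancel _ ha, mul_comm]
  · obtain ⟨-, -, ⟨a, ha⟩, h3⟩ := Finset.mem_filter.1 hi
    have ha0 : 0 < a := Nat.pos_of_ne_zero fun e => hM0 (by simp [ha, e])
    rw [ha, Nat.mul_div_cancel_left _ (Nat.succ_pos _)] at h3
    simp [ha, h3, Nat.mul_div_cancel_left _ (Nat.succ_pos i.1), Nat.mul_div_cancel _ ha0]
  · obtain ⟨hg, -⟩ := Nat.mem_divisors.1 ht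
    have ht0 : 0 < t := Nat.pos_of_mem_divisors ht
    obtain ⟨a, rfl⟩ := hg.trans (Nat.gcd_dvd_left M N)
    have ha : 0 < a := Nat.pos_of_ne_zero fun e => hM0 (by simp [e])
    simp only
    rw [Nat.mul_div_cancel_left _ ht0, Nat.sub_add_cancel ha, Nat.mul_div_cancel _ ha]
  · obtain ⟨-, -, ⟨a, ha⟩, h3⟩ := Finset.mem_filter.1 hi
    have ha0 : 0 < a := Nat.pos_of_ne_zero fun e => hM0 (by simp [ha, e])
    rw [ha, Nat.mul_div_cancel_left _ (Nat.succ_pos _)] at h3
    rw [ha, h3, Nat.mul_div_cancel_left _ (Nat.succ_pos _), Nat.mul_div_cancel _ ha0,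
      Nat.mul_div_cancel _ ha0]
    push_cast
    ring

/-- A series with constant term `1` is determined by its logarithmic derivative, degree by
degree. -/
theorem eq_of_theta_eq_mul {F G V W : PowerSeries (PowerSeries ℂ)} {B : ℕ}
    (hF : PowerSeries.coeff 0 F = 1) (hG : PowerSeries.coeff 0 G = 1)
    (hFV : theta F = F * V) (hGW : theta G = G * W)
    (hVW : ∀ M ≤ B, ∀ N ≤ B, PowerSeries.coeff N (PowerSeries.coeff M V) =
      PowerSeries.coeff N (PowerSeries.coeff M W)) :
    ∀ M ≤ B, ∀ N ≤ B, PowerSeries.coeff N (PowerSeries.coeff M F) =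
      PowerSeries.coeff N (PowerSeries.coeff M G) := by
  intro M
  induction M using Nat.strong_induction_on with
  | _ M ih =>
    intro hM N hN
    rcases Nat.eq_zero_or_pos M with rfl | hM0
    · rw [hF, hG]
    have zero : ∀ {F V : PowerSeries (PowerSeries ℂ)}, PowerSeries.coeff 0 F = 1 →
        theta F = F * V → PowerSeries.coeff 0 V = 0 := by
      intro F V hF hFV
      have h := congrArg (PowerSeries.coeff 0) hFV
      rw [coeff_theta, PowerSeries.coeff_mul, Finset.Nat.antidiagonal_zero, Finset.sum_singleton,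
        hF, one_mul] at h
      simpa using h.symm
    have hl := congrArg (fun f => PowerSeries.coeff N (PowerSeries.coeff M f)) hFV
    have hr := congrArg (fun f => PowerSeries.coeff N (PowerSeries.coeff M f)) hGW
    simp only [coeff_theta, PowerSeries.coeff_mul M, map_sum] at hl hr
    rw [← map_natCast (PowerSeries.C (R := ℂ)), PowerSeries.coeff_C_mul] at hl hr
    have hsum : ∑ p ∈ Finset.HasAntidiagonal.antidiagonal M,
        PowerSeries.coeff N (PowerSeries.coeff p.1 F * PowerSeries.coeff p.2 V) =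
        ∑ p ∈ Finset.HasAntidiagonal.antidiagonal M,
          PowerSeries.coeff N (PowerSeries.coeff p.1 G * PowerSeries.coeff p.2 W) := by
      refine Finset.sum_congr rfl fun p hp => ?_
      have hp' := Finset.HasAntidiagonal.mem_antidiagonal.1 hp
      rcases Nat.eq_zero_or_pos p.2 with h2 | h2
      · rw [h2, zero hF hFV, zero hG hGW, mul_zero, mul_zero]
      rw [PowerSeries.coeff_mul, PowerSeries.coeff_mul]
      refine Finset.sum_congr rfl fun k hk => ?_
      have hk' := Finset.HasAntidiagonal.mem_antidiagonal.1 hk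
      rw [ih p.1 (by omega) (by omega) k.1 (by omega), hVW p.2 (by omega) k.2 (by omega)]
    rw [hsum, ← hr] at hl
    exact mul_left_cancel₀ (Nat.cast_ne_zero.2 hM0.ne') hl

/-- **The product agrees with `H`** in the degrees covered by the factors taken. -/
theorem coeff_partialProd {B : ℕ} {s : Finset (ℕ × ℕ)}
    (hs : Finset.range B ×ˢ Finset.range B ⊆ s) {M N : ℕ} (hM : M ≤ B) (hN : N ≤ B) :
    PowerSeries.coeff N (PowerSeries.coeff M (partialProd s : PowerSeries (PowerSeries ℂ))) =
      PowerSeries.coeff N (PowerSeries.coeff M hSer) :=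
  eq_of_theta_eq_mul (coeff_zero_partialProd s)
    (by rw [PowerSeries.coeff_zero_eq_constantCoeff_apply, constantCoeff_hSer])
    (theta_unit _) theta_hSer (fun _ h₁ _ h₂ => coeff_logD_partialProd hs h₁ h₂) M hM N hN

/-- **The denominator product** converges coefficientwise to `H`. -/
theorem hasProd_hSer :
    HasProd (fun i : ℕ × ℕ =>
      ((factorUnit i ^ cj ((i.1 + 1) * (i.2 + 1)) : (PowerSeries (PowerSeries ℂ))ˣ) :
        PowerSeries (PowerSeries ℂ))) hSer := by
  rw [HasProd, PowerSeries.WithPiTopology.tendsto_iff_coeff_tendsto]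
  intro M
  rw [PowerSeries.WithPiTopology.tendsto_iff_coeff_tendsto]
  intro N
  refine tendsto_const_nhds.congr' ?_
  simp only [SummationFilter.unconditional_filter, Filter.EventuallyEq, Filter.eventually_atTop]
  refine ⟨Finset.range (max M N) ×ˢ Finset.range (max M N), fun s hs => ?_⟩
  rw [← Units.coe_prod]
  exact (coeff_partialProd hs (le_max_left M N) (le_max_right M N)).symm

/-- **The generating function of the Faber polynomials.** -/
theorem theta_gPoly :
    theta (PowerSeries.mk gPoly) = -(PowerSeries.mk gPoly * PowerSeries.mk faber) := by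
  ext m : 1
  rw [coeff_theta, map_neg, mul_comm (PowerSeries.mk gPoly) (PowerSeries.mk faber),
    PowerSeries.coeff_mul, Finset.Nat.sum_antidiagonal_eq_sum_range_succ
      (fun i j => PowerSeries.coeff i (PowerSeries.mk faber) *
        PowerSeries.coeff j (PowerSeries.mk gPoly)), Finset.sum_range_succ, Nat.sub_self]
  simp only [PowerSeries.coeff_mk]
  rcases Nat.eq_zero_or_pos m with rfl | hm
  · rw [show faber 0 = 0 by rw [faber]; simp]
    simp
  rw [show gPoly 0 = 1 by simp [gPoly]]
  have hrec : faber m =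
      -((m : Polynomial ℤ) * gPoly m) - ∑ k ∈ Finset.range m, gPoly (m - k) * faber k := by
    rw [faber, if_neg hm.ne', Fin.sum_univ_eq_sum_range (fun k => gPoly (m - k) * faber k)]
  rw [hrec]
  rw [Finset.sum_congr rfl fun k _ => mul_comm (gPoly (m - k)) (faber k)]
  ring

/-- `2 c(4) + c(1) = 2 c(3) + c(1)²`. -/
theorem cj_four : 2 * cj 4 + cj 1 = 2 * cj 3 + cj 1 ^ 2 := by
  have h := congrArg (fun f => PowerSeries.coeff 2 (PowerSeries.coeff 2 f)) theta_hSer
  simp only [coeff_theta] at h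
  rw [← map_natCast (PowerSeries.C (R := ℂ)), PowerSeries.coeff_C_mul] at h
  simp only [PowerSeries.coeff_mul 2, map_sum] at h
  have hH : ∀ m k, PowerSeries.coeff (k + 1) (PowerSeries.coeff (m + 1) hSer) =
      -(cj (m + 1 + k) : ℂ) := fun m k => by
    simp [hSer, hCoeff, PowerSeries.coeff_succ_X_mul]
  have hH0 : ∀ m, PowerSeries.coeff 0 (PowerSeries.coeff (m + 1) hSer) = 0 := fun m => by
    simp [hSer, hCoeff]
  have hc2 : cHecke 2 2 = 2 * cj 4 + cj 1 := by
    rw [cHecke, show (Nat.gcd 2 2).divisors = {1, 2} from by decide]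
    simp
  have hc1 : cHecke 1 1 = cj 1 := by
    rw [cHecke, show (Nat.gcd 1 1).divisors = {1} from by decide]
    simp
  simp only [Finset.Nat.sum_antidiagonal_eq_sum_range_succ_mk, Finset.sum_range_succ,
    Finset.sum_range_zero, zero_add, Nat.sub_self,
    show PowerSeries.coeff 0 hSer = 1 by
      rw [PowerSeries.coeff_zero_eq_constantCoeff_apply, constantCoeff_hSer]] at h
  simp only [coeff_coeff_vSer, PowerSeries.coeff_one, hH 1 1, hH 0 0, hH 0 1, hH0] at h
  simp [hc2, hc1] at h
  rw [← @Int.cast_inj ℂ]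
  push_cast
  linear_combination h

end FA.JDenominator

end
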