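import Fermat.Agent.JDenominator.Hecke

/-!
# The logarithmic derivative of `p (J(p) - J(q))`

`p (J(p) - J(q)) = (1 - p / q) H` with `H ≡ 1 (mod q)`. The logarithmic derivative in `p` has in
degree `m` a polynomial in `J(q)` of the shape `q ^ (-m) + O(q)`, which is the Hecke image of `j`.
-/

set_option autoImplicit false

noncomputable section

namespace FA.JDenominator

open UpperHalfPlane hiding I
open HahnSeries FA.ModField
open scoped MatrixGroups Manifold

section Theta

variable {R S : Type*} [CommRing R] [CommRing S]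

/-- `p d/dp`. -/
def theta (f : PowerSeries R) : PowerSeries R := PowerSeries.X * PowerSeries.derivative R f

theorem coeff_theta (f : PowerSeries R) (m : ℕ) :
    PowerSeries.coeff m (theta f) = (m : R) * PowerSeries.coeff m f := by
  cases m with
  | zero => simp [theta]
  | succ m =>
    rw [theta, PowerSeries.coeff_succ_X_mul, PowerSeries.coeff_derivative, mul_comm]
    push_cast
    rfl

theorem theta_mul (f g : PowerSeries R) : theta (f * g) = theta f * g + f * theta g := by
  simp only [theta, Derivation.leibniz, smul_eq_mul]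
  ring

theorem theta_one : theta (1 : PowerSeries R) = 0 := by
  simp [theta]

theorem map_theta (φ : R →+* S) (f : PowerSeries R) :
    PowerSeries.map φ (theta f) = theta (PowerSeries.map φ f) := by
  ext m
  simp [coeff_theta, PowerSeries.coeff_map]

end Theta

/-- The coefficient of `pᵐ` in `H`, a series in `q`. -/
def hCoeff (m : ℕ) : PowerSeries ℂ :=
  if m = 0 then 1 else -(PowerSeries.X * PowerSeries.mk fun i => (cj (m + i) : ℂ))

/-- `H`, the double series with `p (J(p) - J(q)) = (1 - p / q) H`. -/
def hSer : PowerSeries (PowerSeries ℂ) := PowerSeries.mk hCoeff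

theorem constantCoeff_hSer : PowerSeries.constantCoeff hSer = 1 := by
  simp [hSer, hCoeff]

/-- The logarithmic derivative of `H`. -/
def vSer : PowerSeries (PowerSeries ℂ) := theta hSer * PowerSeries.invOfUnit hSer 1

theorem theta_hSer : theta hSer = hSer * vSer := by
  rw [vSer, mul_left_comm, PowerSeries.mul_invOfUnit _ _ (by simp [constantCoeff_hSer]), mul_one]

theorem coeff_zero_vSer : PowerSeries.coeff 0 vSer = 0 := by
  rw [PowerSeries.coeff_zero_eq_constantCoeff_apply, vSer, map_mul,
    ← PowerSeries.coeff_zero_eq_constantCoeff_apply, coeff_theta]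
  simp

theorem constantCoeff_coeff_vSer (m : ℕ) :
    PowerSeries.constantCoeff (PowerSeries.coeff m vSer) = 0 := by
  have h1 : PowerSeries.map PowerSeries.constantCoeff hSer = 1 := by
    ext k
    rw [PowerSeries.coeff_map, hSer, PowerSeries.coeff_mk, hCoeff, PowerSeries.coeff_one]
    split_ifs <;> simp
  have h2 : PowerSeries.map PowerSeries.constantCoeff vSer = 0 := by
    rw [vSer, map_mul, map_theta, h1, theta_one, zero_mul]
  rw [← PowerSeries.coeff_map, h2, map_zero]

/-- Power series in `q` inside the Laurent series. -/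
abbrev toLaurent : PowerSeries ℂ →+* LaurentSeries ℂ := ofPowerSeries ℤ ℂ

theorem toLaurent_coeff_neg (f : PowerSeries ℂ) {k : ℤ} (hk : k < 0) :
    (toLaurent f).coeff k = 0 := ModularCurve.ofPowerSeries_coeff_of_neg _ hk

/-- `j - 744` as a series. -/
def jSer : LaurentSeries ℂ := ModularCurve.jqModC ℂ - HahnSeries.C 744

/-- `p (J(p) - J(q))`. -/
def gSer : PowerSeries (LaurentSeries ℂ) :=
  PowerSeries.mk fun m => (if m = 0 then 1 else HahnSeries.C (cj (m - 1) : ℂ)) -
    if m = 1 then jSer else 0

/-- `q⁻¹`. -/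
def qInv : LaurentSeries ℂ := single (-1 : ℤ) 1

theorem gSer_eq : gSer = (1 - PowerSeries.C qInv * PowerSeries.X) *
    PowerSeries.map toLaurent hSer := by
  ext m : 1
  rw [sub_mul, one_mul, map_sub, mul_assoc, PowerSeries.coeff_C_mul]
  cases m with
  | zero => simp [gSer, hSer, hCoeff]
  | succ m =>
    rw [PowerSeries.coeff_succ_X_mul, gSer, PowerSeries.coeff_mk, PowerSeries.coeff_map,
      PowerSeries.coeff_map, hSer, PowerSeries.coeff_mk, PowerSeries.coeff_mk,
      if_neg (Nat.succ_ne_zero m), Nat.add_sub_cancel, hCoeff, if_neg (Nat.succ_ne_zero m)]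
    ext k
    rw [coeff_sub, coeff_sub, qInv, coeff_single_mul, one_mul, sub_neg_eq_add, HahnSeries.C_apply]
    rcases m with _ | m
    · rw [if_pos rfl, hCoeff, if_pos rfl, map_one, jSer, coeff_sub, HahnSeries.C_apply,
        show cj 0 = 0 from if_pos rfl, Int.cast_zero]
      rcases lt_trichotomy k 0 with hk | rfl | hk
      · rw [toLaurent_coeff_neg _ hk, coeff_single_of_ne hk.ne, coeff_single_of_ne hk.ne]
        rcases (show k ≤ -1 by omega).lt_or_eq with hk' | rfl
        · rw [jqModC_coeff_of_lt hk', coeff_one, if_neg (by omega)]; ring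
        · rw [jqModC_coeff_neg_one, coeff_one, if_pos (by norm_num)]; ring
      · rw [coeff_single_same, coeff_single_same, jq_coeff_zero,
          show (0 : ℤ) = ((0 : ℕ) : ℤ) from rfl, ofPowerSeries_apply_coeff]
        simp
      · obtain ⟨j, rfl⟩ : ∃ j : ℕ, k = ((j + 1 : ℕ) : ℤ) := ⟨(k - 1).toNat, by omega⟩
        rw [coeff_single_of_ne (by omega), coeff_single_of_ne (by omega), jq_coeff (by omega),
          coeff_one, if_neg (by omega), ofPowerSeries_apply_coeff, map_neg,
          PowerSeries.coeff_succ_X_mul, PowerSeries.coeff_mk, zero_add, add_comm 1 j]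
        ring
    · rw [if_neg (by omega), coeff_zero, sub_zero, hCoeff, if_neg (Nat.succ_ne_zero m)]
      rcases lt_trichotomy k 0 with hk | rfl | hk
      · rw [toLaurent_coeff_neg _ hk, coeff_single_of_ne hk.ne]
        rcases (show k ≤ -1 by omega).lt_or_eq with hk' | rfl
        · rw [toLaurent_coeff_neg _ (by omega)]; ring
        · rw [show (-1 : ℤ) + 1 = ((0 : ℕ) : ℤ) by norm_num, ofPowerSeries_apply_coeff]
          simp
      · rw [coeff_single_same, show (0 : ℤ) + 1 = ((1 : ℕ) : ℤ) by norm_num,
          show (0 : ℤ) = ((0 : ℕ) : ℤ) from rfl, ofPowerSeries_apply_coeff,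
          ofPowerSeries_apply_coeff, map_neg, map_neg, PowerSeries.coeff_succ_X_mul,
          PowerSeries.coeff_zero_X_mul, PowerSeries.coeff_mk]
        ring_nf
      · obtain ⟨j, rfl⟩ : ∃ j : ℕ, k = ((j + 1 : ℕ) : ℤ) := ⟨(k - 1).toNat, by omega⟩
        rw [coeff_single_of_ne (by omega),
          show ((j + 1 : ℕ) : ℤ) + 1 = ((j + 1 + 1 : ℕ) : ℤ) by push_cast; rfl,
          ofPowerSeries_apply_coeff, ofPowerSeries_apply_coeff, map_neg, map_neg,
          PowerSeries.coeff_succ_X_mul, PowerSeries.coeff_succ_X_mul, PowerSeries.coeff_mk,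
          PowerSeries.coeff_mk, show m + 1 + (j + 1) = m + 1 + 1 + j by omega]
        ring

/-- `∑ pᵐ q^(-m)`. -/
def geoSer : PowerSeries (LaurentSeries ℂ) :=
  PowerSeries.mk fun m => if m = 0 then 0 else single (-(m : ℤ)) 1

theorem geoSer_eq :
    (1 - PowerSeries.C qInv * PowerSeries.X) * geoSer = PowerSeries.C qInv * PowerSeries.X := by
  ext m : 1
  rw [sub_mul, one_mul, map_sub, mul_assoc, PowerSeries.coeff_C_mul, PowerSeries.coeff_C_mul]
  rcases m with _ | _ | m
  · simp [geoSer]
  · simp [geoSer, qInv]
  · rw [PowerSeries.coeff_succ_X_mul, geoSer, PowerSeries.coeff_mk, PowerSeries.coeff_mk,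
      if_neg (by omega), if_neg (by omega), qInv, single_mul_single, PowerSeries.coeff_X,
      if_neg (by omega), mul_zero]
    push_cast
    ring_nf

/-- The logarithmic derivative of `p (J(p) - J(q))`, negated. -/
def uSer : PowerSeries (LaurentSeries ℂ) := geoSer - PowerSeries.map toLaurent vSer

theorem theta_gSer : theta gSer = -(gSer * uSer) := by
  have hL : theta (1 - PowerSeries.C qInv * PowerSeries.X) =
      -((1 - PowerSeries.C qInv * PowerSeries.X) * geoSer) := by
    rw [geoSer_eq]
    ext m : 1
    rw [coeff_theta, map_sub, map_neg, PowerSeries.coeff_one, PowerSeries.coeff_C_mul,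
      PowerSeries.coeff_X]
    rcases m with _ | _ | m <;> simp
  have hH : theta (PowerSeries.map toLaurent hSer) =
      PowerSeries.map toLaurent hSer * PowerSeries.map toLaurent vSer := by
    rw [← map_theta, theta_hSer, map_mul]
  rw [gSer_eq, theta_mul, hL, hH, uSer]
  ring

theorem coeff_uSer {m : ℕ} (hm : m ≠ 0) : PowerSeries.coeff m uSer =
    single (-(m : ℤ)) 1 - toLaurent (PowerSeries.coeff m vSer) := by
  simp [uSer, geoSer, PowerSeries.coeff_map, hm]

/-- The coefficient of `pᵐ` in `p (J(p) - X)`. -/
def gPoly (m : ℕ) : Polynomial ℤ :=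
  (if m = 0 then 1 else Polynomial.C (cj (m - 1))) - if m = 1 then Polynomial.X else 0

/-- The Faber polynomials of `J`, by Newton's recursion. -/
def faber : ℕ → Polynomial ℤ
  | m => if m = 0 then 0 else
      -((m : Polynomial ℤ) * gPoly m) - ∑ k : Fin m, gPoly (m - k) * faber k
  termination_by m => m
  decreasing_by exact k.isLt

/-- Substitution of `J(q)`. -/
def atJ : Polynomial ℤ →+* LaurentSeries ℂ :=
  Polynomial.eval₂RingHom (Int.castRingHom (LaurentSeries ℂ)) jSer

theorem atJ_gPoly (m : ℕ) : atJ (gPoly m) = PowerSeries.coeff m gSer := by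
  rw [gPoly, gSer, PowerSeries.coeff_mk, map_sub]
  congr 1 <;> split_ifs <;> simp [atJ]

theorem atJ_faber (m : ℕ) : atJ (faber m) = PowerSeries.coeff m uSer := by
  induction m using Nat.strong_induction_on with
  | _ m ih =>
    rcases Nat.eq_zero_or_pos m with rfl | hm
    · rw [faber, if_pos rfl, map_zero, uSer, map_sub, geoSer, PowerSeries.coeff_mk, if_pos rfl,
        PowerSeries.coeff_map, coeff_zero_vSer, map_zero, sub_zero]
    have h := congrArg (PowerSeries.coeff m) theta_gSer
    rw [coeff_theta, map_neg, mul_comm gSer uSer, PowerSeries.coeff_mul,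
      Finset.Nat.sum_antidiagonal_eq_sum_range_succ
        (fun i j => PowerSeries.coeff i uSer * PowerSeries.coeff j gSer),
      Finset.sum_range_succ, Nat.sub_self] at h
    have hs : atJ (∑ k : Fin m, gPoly (m - k) * faber k) =
        ∑ k ∈ Finset.range m, PowerSeries.coeff k uSer * PowerSeries.coeff (m - k) gSer := by
      rw [map_sum, ← Fin.sum_univ_eq_sum_range]
      exact Finset.sum_congr rfl fun k _ => by rw [map_mul, ih k k.isLt, atJ_gPoly, mul_comm]
    rw [faber, if_neg hm.ne', map_sub, map_neg, map_mul, map_natCast, atJ_gPoly, hs]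
    have h0 : PowerSeries.coeff 0 gSer = 1 := by simp [gSer]
    rw [h0, mul_one] at h
    linear_combination -h

theorem faber_monic : ∀ m, 1 ≤ m → (faber m).Monic ∧ (faber m).natDegree = m := by
  intro m
  induction m using Nat.strong_induction_on with
  | _ m ih =>
    intro hm
    obtain ⟨j, rfl⟩ : ∃ j, m = j + 1 := ⟨m - 1, by omega⟩
    have f0 : faber 0 = 0 := by rw [faber]; simp
    rw [faber, if_neg (Nat.succ_ne_zero j),
      Fin.sum_univ_eq_sum_range (fun k => gPoly (j + 1 - k) * faber k), Finset.sum_range_succ,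
      show j + 1 - j = 1 by omega, show gPoly 1 = -Polynomial.X by simp [gPoly, cj]]
    rcases Nat.eq_zero_or_pos j with rfl | hj
    · simp [f0, show gPoly 1 = -Polynomial.X by simp [gPoly, cj], Polynomial.monic_X]
    obtain ⟨hmon, hdeg⟩ := ih j (by omega) hj
    set r := -((((j + 1 : ℕ)) : Polynomial ℤ) * gPoly (j + 1)) -
      ∑ k ∈ Finset.range j, gPoly (j + 1 - k) * faber k
    have hconst : ∀ i, 2 ≤ i → (gPoly i).natDegree = 0 := fun i hi => by
      simp [gPoly, show i ≠ 0 by omega, show i ≠ 1 by omega]
    have hr : r.natDegree ≤ j := by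
      refine (Polynomial.natDegree_sub_le _ _).trans (max_le ?_ ?_)
      · rw [Polynomial.natDegree_neg]
        refine Polynomial.natDegree_mul_le.trans ?_
        rw [Polynomial.natDegree_natCast, hconst _ (by omega)]
        omega
      · refine Polynomial.natDegree_sum_le_of_forall_le _ _ fun k hk => ?_
        have := Finset.mem_range.1 hk
        refine Polynomial.natDegree_mul_le.trans ?_
        rw [hconst _ (by omega)]
        rcases Nat.eq_zero_or_pos k with rfl | hk0
        · simp [f0]
        · rw [(ih k (by omega) hk0).2]; omega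
    have hXm : (Polynomial.X * faber j).natDegree = j + 1 := by
      rw [Polynomial.natDegree_mul Polynomial.X_ne_zero hmon.ne_zero, Polynomial.natDegree_X, hdeg,
        add_comm]
    have hlt : r.degree < (Polynomial.X * faber j).degree := by
      rw [Polynomial.degree_eq_natDegree (mul_ne_zero Polynomial.X_ne_zero hmon.ne_zero), hXm]
      exact lt_of_le_of_lt Polynomial.degree_le_natDegree (by exact_mod_cast Nat.lt_succ_of_le hr)
    rw [show -(((j + 1 : ℕ) : Polynomial ℤ) * gPoly (j + 1)) -
      (∑ k ∈ Finset.range j, gPoly (j + 1 - k) * faber k + -Polynomial.X * faber j) =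
        Polynomial.X * faber j + r by simp only [r]; ring]
    exact ⟨(Polynomial.monic_X.mul hmon).add_of_left hlt,
      (Polynomial.natDegree_eq_of_degree_eq (Polynomial.degree_add_eq_left_of_degree_lt hlt)).trans
        hXm⟩

theorem hasExp_atJ (P : Polynomial ℤ) :
    HasExp (qp 1) (fun z => P.eval₂ (Int.castRingHom ℂ) (jfun z - 744)) (atJ P) := by
  induction P using Polynomial.induction_on with
  | C a =>
    simp only [atJ, Polynomial.coe_eval₂RingHom, Polynomial.eval₂_C]
    simp only [eq_intCast]
    rw [← map_intCast (HahnSeries.C : ℂ →+* LaurentSeries ℂ)]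
    exact hasExp_C _
  | add p q hp hq =>
    simp only [Polynomial.eval₂_add, map_add]
    exact hp.add hq
  | monomial k a h =>
    rw [show Polynomial.C a * Polynomial.X ^ (k + 1) =
      Polynomial.C a * Polynomial.X ^ k * Polynomial.X by ring, map_mul]
    simp only [Polynomial.eval₂_mul_X]
    have hJ : HasExp (qp 1) (fun z => jfun z - 744) jSer := hasExp_jfun.sub (hasExp_C 744)
    have h2 : atJ Polynomial.X = jSer := Polynomial.eval₂_X _ _
    rw [h2]
    exact h.mul (qp_ne_zero 1) hJ

variable (n : ℕ) [NeZero n]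

/-- **The Hecke image is the Faber polynomial at `j - 744`**, and its coefficients are those of the
logarithmic derivative. -/
theorem heckeFun_eq_faber :
    (∀ z, heckeFun n z = ((∑ d ∈ n.divisors, d : ℕ) : ℂ) * 744 +
      (faber n).eval₂ (Int.castRingHom ℂ) (jfun z - 744)) ∧
    ∀ k : ℕ, k ≠ 0 →
      PowerSeries.coeff k (PowerSeries.coeff n vSer) = -(cHecke n k : ℂ) := by
  set s : ℂ := ((∑ d ∈ n.divisors, d : ℕ) : ℂ) * 744 with hs
  set f : ℍ → ℂ := fun z =>
    heckeFun n z - s - (faber n).eval₂ (Int.castRingHom ℂ) (jfun z - 744) with hf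
  have hexp : HasExp (qp 1) f (heckeSer n - HahnSeries.C s - PowerSeries.coeff n uSer) := by
    rw [← atJ_faber]
    exact ((hasExp_heckeSer n).sub (hasExp_C s)).sub (hasExp_atJ _)
  have hzero : OrdGE 1 (heckeSer n - HahnSeries.C s - PowerSeries.coeff n uSer) := by
    intro k hk
    have hn0 : (0 : ℤ) < n := by exact_mod_cast Nat.pos_of_ne_zero (NeZero.ne n)
    rw [coeff_sub, coeff_sub, coeff_uSer (NeZero.ne n), coeff_sub, HahnSeries.C_apply]
    rcases (show k ≤ 0 by omega).lt_or_eq with hk' | rfl
    · rw [heckeSer_coeff_neg n hk', toLaurent_coeff_neg _ hk', coeff_single, coeff_single,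
        if_neg hk'.ne]
      ring_nf
    · rw [heckeSer_coeff_zero, coeff_single_same, coeff_single_of_ne (by omega),
        show (0 : ℤ) = ((0 : ℕ) : ℤ) from rfl, ofPowerSeries_apply_coeff,
        PowerSeries.coeff_zero_eq_constantCoeff_apply, constantCoeff_coeff_vSer, ← hs]
      ring
  have hinv : ∀ (g : SL(2, ℤ)) z, f (g • z) = f z := fun g z => by
    simp only [hf, heckeFun_smul, jfun_smul]
  have hmd : MDiff f := by
    refine ((mdiff_heckeFun n).sub mdifferentiable_const).sub ?_
    rw [UpperHalfPlane.mdifferentiable_iff]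
    have hj := UpperHalfPlane.mdifferentiable_iff.1 mdiff_jfun
    exact ((faber n).map (Int.castRingHom ℂ)).differentiable.comp_differentiableOn
      (hj.sub_const 744) |>.congr fun z _ => by simp [Polynomial.eval_map]
  obtain ⟨c, hc⟩ := eq_const_of_invariant hinv hmd hexp (hzero.mono (by norm_num))
  have hser := hexp.unique (covers_qp 1) (hc ▸ hasExp_C c)
  have hc0 : c = 0 := by
    have := congrArg (fun S : LaurentSeries ℂ => S.coeff 0) hser
    rw [hzero 0 zero_lt_one, HahnSeries.C_apply, coeff_single_same] at this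
    exact this.symm
  refine ⟨fun z => ?_, fun k hk => ?_⟩
  · have := congrFun hc z
    simp only [hf, hc0] at this
    linear_combination this
  · have := congrArg (fun S : LaurentSeries ℂ => S.coeff (k : ℤ)) hser
    rw [hc0, map_zero] at this
    simp only [coeff_sub, coeff_uSer (NeZero.ne n), HahnSeries.C_apply, coeff_zero] at this
    rw [coeff_single_of_ne (by omega), coeff_single_of_ne (by omega), ofPowerSeries_apply_coeff,
      heckeSer_coeff_pos n hk] at this
    linear_combination this

theorem coeff_coeff_vSer (m k : ℕ) : PowerSeries.coeff k (PowerSeries.coeff m vSer) =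
    if m = 0 ∨ k = 0 then 0 else -(cHecke m k : ℂ) := by
  rcases Nat.eq_zero_or_pos m with rfl | hm
  · simp [coeff_zero_vSer]
  rcases Nat.eq_zero_or_pos k with rfl | hk
  · rw [if_pos (Or.inr rfl), PowerSeries.coeff_zero_eq_constantCoeff_apply,
      constantCoeff_coeff_vSer]
  · have : NeZero m := ⟨hm.ne'⟩
    rw [if_neg (by omega), (heckeFun_eq_faber m).2 k hk.ne']

end FA.JDenominator

end
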